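import Fermat.Agent.H53.S14T.Interfaces

/-!
# P-S14, block T, sub-task T-G2: Hilbert 90 via the Lagrange resolvent

`Fermat.Agent.H36.hilbert90 : Fermat.Agent.H53.Hilbert90Statement`.
-/

set_option autoImplicit false

namespace Fermat.Agent.H36

open Fermat.Agent.H53

/-- `ℚ̄ / ℚ` is Galois (for the algebra instance found by instance search). -/
theorem isGalois_Qbar_h90 : IsGalois ℚ (AlgebraicClosure ℚ) := by
  have h : (DivisionRing.toRatAlgebra : Algebra ℚ (AlgebraicClosure ℚ)) =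
      AlgebraicClosure.instAlgebra ℚ := Subsingleton.elim _ _
  rw [h]
  infer_instance

section

variable {p : ℕ} [Fact p.Prime] {ζ : AlgebraicClosure ℚ} {b : GQ → ZMod p}

/-- `b 1 = 0`. -/
theorem h90_b_one (hb : ∀ σ τ : GQ, σ ζ = ζ → τ ζ = ζ → b (σ * τ) = b σ + b τ) :
    b 1 = 0 := by
  have h := hb 1 1 rfl rfl
  rw [mul_one] at h
  exact left_eq_add.mp h

/-- `b σ⁻¹ = - b σ` on the stabiliser of `ζ`. -/
theorem h90_b_inv (hb : ∀ σ τ : GQ, σ ζ = ζ → τ ζ = ζ → b (σ * τ) = b σ + b τ)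
    (σ : GQ) (hσ : σ ζ = ζ) : b σ⁻¹ = - b σ := by
  have hσ' : σ⁻¹ ζ = ζ := by
    have : σ⁻¹ (σ ζ) = ζ := by
      change (σ⁻¹ * σ) ζ = ζ
      rw [inv_mul_cancel]; rfl
    rwa [hσ] at this
  have h := hb σ σ⁻¹ hσ hσ'
  rw [mul_inv_cancel, h90_b_one hb] at h
  exact eq_neg_of_add_eq_zero_right h.symm

theorem h90_inv_fix (σ : GQ) (hσ : σ ζ = ζ) : σ⁻¹ ζ = ζ := by
  have : σ⁻¹ (σ ζ) = ζ := by
    change (σ⁻¹ * σ) ζ = ζ
    rw [inv_mul_cancel]; rfl
  rwa [hσ] at this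

theorem h90_pow_fix (σ : GQ) (hσ : σ ζ = ζ) (n : ℕ) : (σ ^ n) ζ = ζ := by
  induction n with
  | zero => rfl
  | succ n ih =>
    rw [pow_succ]
    change (σ ^ n) (σ ζ) = ζ
    rw [hσ, ih]

/-- `b (σ ^ n) = n * b σ` on the stabiliser of `ζ`. -/
theorem h90_b_pow (hb : ∀ σ τ : GQ, σ ζ = ζ → τ ζ = ζ → b (σ * τ) = b σ + b τ)
    (σ : GQ) (hσ : σ ζ = ζ) (n : ℕ) : b (σ ^ n) = (n : ZMod p) * b σ := by
  induction n with
  | zero => simp [h90_b_one hb]
  | succ n ih =>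
    rw [pow_succ, hb _ _ (h90_pow_fix σ hσ n) hσ, ih]
    push_cast
    ring

/-- The kernel of `b` on the stabiliser of `ζ`, as a subgroup. -/
def h90Ker (ζ : AlgebraicClosure ℚ) (b : GQ → ZMod p)
    (hb : ∀ σ τ : GQ, σ ζ = ζ → τ ζ = ζ → b (σ * τ) = b σ + b τ) : Subgroup GQ where
  carrier := {σ : GQ | σ ζ = ζ ∧ b σ = 0}
  one_mem' := ⟨rfl, h90_b_one hb⟩
  mul_mem' := by
    rintro σ τ ⟨hσ, hσb⟩ ⟨hτ, hτb⟩
    refine ⟨?_, ?_⟩
    · change σ (τ ζ) = ζ
      rw [hτ, hσ]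
    · rw [hb σ τ hσ hτ, hσb, hτb, add_zero]
  inv_mem' := by
    rintro σ ⟨hσ, hσb⟩
    exact ⟨h90_inv_fix σ hσ, by rw [h90_b_inv hb σ hσ, hσb, neg_zero]⟩

theorem mem_h90Ker (hb : ∀ σ τ : GQ, σ ζ = ζ → τ ζ = ζ → b (σ * τ) = b σ + b τ) (σ : GQ) :
    σ ∈ h90Ker ζ b hb ↔ σ ζ = ζ ∧ b σ = 0 := Iff.rfl

end


/-- **T-G2** (Hilbert 90 via Lagrange resolvents). -/
theorem hilbert90 : Fermat.Agent.H53.Hilbert90Statement := by
  intro p _ ζ hζ b hb hopen
  classical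
  have := isGalois_Qbar_h90
  have : NeZero p := ⟨(Fact.out : p.Prime).ne_zero⟩
  by_cases h0 : ∀ τ : GQ, τ ζ = ζ → b τ = 0
  · refine ⟨1, one_ne_zero, fun τ hτ => ?_⟩
    rw [h0 τ hτ]
    simp
  · push Not at h0
    obtain ⟨τ₁, hτ₁, hbτ₁⟩ := h0
    -- an element `τ₀` of the stabiliser with `b τ₀ = 1`
    obtain ⟨τ₀, hτ₀, hbτ₀⟩ : ∃ τ₀ : GQ, τ₀ ζ = ζ ∧ b τ₀ = 1 := by
      refine ⟨τ₁ ^ ((b τ₁)⁻¹).val, h90_pow_fix τ₁ hτ₁ _, ?_⟩
      rw [h90_b_pow hb τ₁ hτ₁, ZMod.natCast_val, ZMod.cast_id', id, inv_mul_cancel₀ hbτ₁]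
    have hζp : ζ ^ p = 1 := hζ.pow_eq_one
    have hζ0 : ζ ≠ 0 := hζ.ne_zero (NeZero.ne p)
    -- the kernel and its fixed field
    have hNclosed : IsClosed ((h90Ker ζ b hb : Subgroup GQ) : Set GQ) :=
      Subgroup.isClosed_of_isOpen _ hopen
    have hfix : ∀ σ : GQ,
        (∀ x ∈ IntermediateField.fixedField (h90Ker ζ b hb), σ x = x) → σ ∈ h90Ker ζ b hb := by
      intro σ hσ
      have h := InfiniteGalois.fixingSubgroup_fixedField (k := ℚ) (K := AlgebraicClosure ℚ)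
        ⟨h90Ker ζ b hb, hNclosed⟩
      have hmem : σ ∈ (IntermediateField.fixedField (h90Ker ζ b hb)).fixingSubgroup :=
        (IntermediateField.mem_fixingSubgroup_iff _ _).mpr hσ
      rw [h] at hmem
      exact hmem
    have hLfix : ∀ σ ∈ h90Ker ζ b hb, ∀ x ∈ IntermediateField.fixedField (h90Ker ζ b hb),
        σ x = x := fun σ hσ x hx => (IntermediateField.mem_fixedField_iff _ _).mp hx σ hσ
    -- the characters `θ ↦ τ₀ ^ i θ` on the fixed field
    let f : ZMod p → (↥(IntermediateField.fixedField (h90Ker ζ b hb)) →* AlgebraicClosure ℚ) :=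
      fun x => ((τ₀ ^ x.val : GQ) : AlgebraicClosure ℚ →* AlgebraicClosure ℚ).comp
        ((IntermediateField.fixedField (h90Ker ζ b hb)).val :
          ↥(IntermediateField.fixedField (h90Ker ζ b hb)) →* AlgebraicClosure ℚ)
    have hf_apply : ∀ (x : ZMod p) (θ : ↥(IntermediateField.fixedField (h90Ker ζ b hb))),
        f x θ = (τ₀ ^ x.val) (θ : AlgebraicClosure ℚ) := fun _ _ => rfl
    have hf_inj : Function.Injective f := by
      intro x y hxy
      have hmem : (τ₀ ^ y.val)⁻¹ * τ₀ ^ x.val ∈ h90Ker ζ b hb := by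
        apply hfix
        intro θ hθ
        have h1 : (τ₀ ^ x.val) θ = (τ₀ ^ y.val) θ := by
          have := DFunLike.congr_fun hxy ⟨θ, hθ⟩
          simpa [hf_apply] using this
        change (τ₀ ^ y.val)⁻¹ ((τ₀ ^ x.val) θ) = θ
        rw [h1]
        change ((τ₀ ^ y.val)⁻¹ * τ₀ ^ y.val) θ = θ
        rw [inv_mul_cancel]; rfl
      have hb0 := ((mem_h90Ker hb _).mp hmem).2
      rw [hb _ _ (h90_inv_fix _ (h90_pow_fix τ₀ hτ₀ _)) (h90_pow_fix τ₀ hτ₀ _),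
        h90_b_inv hb _ (h90_pow_fix τ₀ hτ₀ _), h90_b_pow hb τ₀ hτ₀, h90_b_pow hb τ₀ hτ₀,
        hbτ₀, mul_one, mul_one] at hb0
      simp only [ZMod.natCast_val, ZMod.cast_id', id_eq] at hb0
      have : x = y := by linear_combination hb0
      exact this
    -- linear independence gives `θ` with non-vanishing resolvent
    have hli : LinearIndependent (AlgebraicClosure ℚ)
        (fun x : ZMod p => (f x : ↥(IntermediateField.fixedField (h90Ker ζ b hb)) →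
          AlgebraicClosure ℚ)) :=
      (linearIndependent_monoidHom _ (AlgebraicClosure ℚ)).comp f hf_inj
    obtain ⟨θ, hθ⟩ : ∃ θ : ↥(IntermediateField.fixedField (h90Ker ζ b hb)),
        ∑ x : ZMod p, (ζ⁻¹) ^ x.val * (τ₀ ^ x.val) (θ : AlgebraicClosure ℚ) ≠ 0 := by
      by_contra hcon
      push Not at hcon
      have hsum : ∑ x : ZMod p, ((ζ⁻¹) ^ x.val : AlgebraicClosure ℚ) •
          (f x : ↥(IntermediateField.fixedField (h90Ker ζ b hb)) → AlgebraicClosure ℚ) = 0 := by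
        funext θ
        simp only [Finset.sum_apply, Pi.smul_apply, smul_eq_mul, Pi.zero_apply]
        exact hcon θ
      have := Fintype.linearIndependent_iff.mp hli (fun x => (ζ⁻¹) ^ x.val) hsum 0
      exact pow_ne_zero _ (inv_ne_zero hζ0) this
    refine ⟨_, hθ, fun τ hτ => ?_⟩
    -- periodic summand
    set u : ℕ → AlgebraicClosure ℚ := fun j => (ζ⁻¹) ^ j * (τ₀ ^ j) (θ : AlgebraicClosure ℚ)
      with hu
    have hτ₀p : τ₀ ^ p ∈ h90Ker ζ b hb := by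
      refine (mem_h90Ker hb _).mpr ⟨h90_pow_fix τ₀ hτ₀ p, ?_⟩
      rw [h90_b_pow hb τ₀ hτ₀, hbτ₀, mul_one, ZMod.natCast_self]
    have hper : ∀ j : ℕ, u (j + p) = u j := by
      intro j
      simp only [hu]
      rw [pow_add, pow_add, inv_pow ζ p, hζp, inv_one, mul_one]
      congr 1
      change (τ₀ ^ j) ((τ₀ ^ p) (θ : AlgebraicClosure ℚ)) = _
      rw [hLfix _ hτ₀p _ θ.2]
    have hmod : ∀ j : ℕ, u (j % p) = u j := by
      intro j
      induction j using Nat.strong_induction_on with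
      | _ j ih =>
        rcases Nat.lt_or_ge j p with hj | hj
        · rw [Nat.mod_eq_of_lt hj]
        · have h1 : j = (j - p) + p := (Nat.sub_add_cancel hj).symm
          have h2 : j % p = (j - p) % p := by
            conv_lhs => rw [h1]
            exact Nat.add_mod_right _ _
          rw [h2, ih (j - p) (by have := (Fact.out : p.Prime).pos; omega)]
          conv_rhs => rw [h1]
          exact (hper _).symm
    -- action of τ on the summands
    have hact : ∀ j : ℕ, τ ((τ₀ ^ j) (θ : AlgebraicClosure ℚ)) =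
        (τ₀ ^ (j + (b τ).val)) (θ : AlgebraicClosure ℚ) := by
      intro j
      have hmem : (τ₀ ^ (j + (b τ).val))⁻¹ * (τ * τ₀ ^ j) ∈ h90Ker ζ b hb := by
        have hfix1 : (τ * τ₀ ^ j) ζ = ζ := by
          change τ ((τ₀ ^ j) ζ) = ζ
          rw [h90_pow_fix τ₀ hτ₀, hτ]
        refine (mem_h90Ker hb _).mpr ⟨?_, ?_⟩
        · change (τ₀ ^ (j + (b τ).val))⁻¹ ((τ * τ₀ ^ j) ζ) = ζ
          rw [hfix1]
          exact h90_inv_fix _ (h90_pow_fix τ₀ hτ₀ _)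
        · rw [hb _ _ (h90_inv_fix _ (h90_pow_fix τ₀ hτ₀ _)) hfix1,
            h90_b_inv hb _ (h90_pow_fix τ₀ hτ₀ _), hb _ _ hτ (h90_pow_fix τ₀ hτ₀ _),
            h90_b_pow hb τ₀ hτ₀, h90_b_pow hb τ₀ hτ₀, hbτ₀, mul_one, mul_one]
          push_cast
          rw [ZMod.natCast_val, ZMod.cast_id', id]
          ring
      have h1 := hLfix _ hmem _ θ.2
      have h2 : (τ₀ ^ (j + (b τ).val)) (((τ₀ ^ (j + (b τ).val))⁻¹ * (τ * τ₀ ^ j))
          (θ : AlgebraicClosure ℚ)) = (τ₀ ^ (j + (b τ).val)) (θ : AlgebraicClosure ℚ) := by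
        rw [h1]
      rw [← h2]
      change _ = ((τ₀ ^ (j + (b τ).val)) * ((τ₀ ^ (j + (b τ).val))⁻¹ * (τ * τ₀ ^ j)))
        (θ : AlgebraicClosure ℚ)
      rw [mul_inv_cancel_left]
      rfl
    have hτζinv : τ ζ⁻¹ = ζ⁻¹ := by rw [map_inv₀, hτ]
    -- compute
    have hstep : ∀ x : ZMod p, τ ((ζ⁻¹) ^ x.val * (τ₀ ^ x.val) (θ : AlgebraicClosure ℚ)) =
        ζ ^ (b τ).val * u ((x + b τ).val) := by
      intro x
      rw [map_mul, map_pow, hτζinv, hact, ZMod.val_add, hmod]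
      simp only [hu]
      have hz : ζ ^ (b τ).val * (ζ⁻¹) ^ (x.val + (b τ).val) = (ζ⁻¹) ^ x.val := by
        rw [pow_add, inv_pow, inv_pow]
        field_simp
      rw [← mul_assoc, hz]
    rw [map_sum, Finset.mul_sum]
    rw [Finset.sum_congr rfl (fun x _ => hstep x)]
    exact (Equiv.sum_comp (Equiv.addRight (b τ))
      (fun x : ZMod p => ζ ^ (b τ).val * u x.val))

end Fermat.Agent.H36
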