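import Mathlib

set_option autoImplicit false

namespace Fermat.Agent.H36

open Module

/-- (D4) abstract finiteness transfer (pure algebra), in the exact shape requested by the
S22 project: endomorphisms `T i` of `V` and `S i` of `W` intertwined by an additive relation
`Rel ⊆ V × W` which is total and injective on `V`, with a finitely generated `ℤ`-lattice
`Λ ⊆ W` stable under the `S i` and whose complex span contains everything related to `V`. -/
theorem adjoin_finite_of_lattice {V W ι : Type*} [AddCommGroup V] [Module ℂ V]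
    [AddCommGroup W] [Module ℂ W]
    (Λ : Submodule ℤ W) (hΛ : Λ.FG) (T : ι → Module.End ℂ V) (S : ι → Module.End ℂ W)
    (hS : ∀ i, ∀ u ∈ Λ, S i u ∈ Λ) (Rel : V → W → Prop)
    (hex : ∀ f, ∃ u, Rel f u) (hzero : Rel 0 0)
    (hadd : ∀ f f' u u', Rel f u → Rel f' u' → Rel (f + f') (u + u'))
    (hneg : ∀ f u, Rel f u → Rel (-f) (-u))
    (hstep : ∀ i f u, Rel f u → Rel (T i f) (S i u))
    (hinj : ∀ f, Rel f 0 → f = 0)
    (hspan : ∀ f u, Rel f u → u ∈ Submodule.span ℂ (Λ : Set W)) :
    Module.Finite ℤ ↥(Algebra.adjoin ℤ (Set.range T)) := by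
  classical
  -- integer multiples respect `Rel`
  have hnat : ∀ (n : ℕ) f u, Rel f u → Rel (n • f) (n • u) := by
    intro n f u h
    induction n with
    | zero => simpa using hzero
    | succ n ih => rw [succ_nsmul, succ_nsmul]; exact hadd _ _ _ _ ih h
  have hint : ∀ (z : ℤ) f u, Rel f u → Rel (z • f) (z • u) := by
    intro z f u h
    obtain ⟨n, rfl | rfl⟩ := z.eq_nat_or_neg
    · simpa using hnat n f u h
    · have := hneg _ _ (hnat n f u h)
      simpa using this
  -- the algebra of compatible pairs
  let gens : Set (Module.End ℂ V × Module.End ℂ W) := Set.range fun i => (T i, S i)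
  let 𝕋 : Subalgebra ℤ (Module.End ℂ V × Module.End ℂ W) := Algebra.adjoin ℤ gens
  have hprop : ∀ x ∈ 𝕋, (∀ u ∈ Λ, x.2 u ∈ Λ) ∧ (∀ f u, Rel f u → Rel (x.1 f) (x.2 u)) := by
    intro x hx
    induction hx using Algebra.adjoin_induction with
    | mem x hx =>
        obtain ⟨i, rfl⟩ := hx
        exact ⟨hS i, hstep i⟩
    | algebraMap z =>
        refine ⟨fun u hu => ?_, fun f u h => ?_⟩
        · have : ((algebraMap ℤ (Module.End ℂ V × Module.End ℂ W) z).2) u = z • u := by
            simp
          rw [this]
          exact Λ.smul_mem z hu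
        · have h1 : ((algebraMap ℤ (Module.End ℂ V × Module.End ℂ W) z).1) f = z • f := by
            simp
          have h2 : ((algebraMap ℤ (Module.End ℂ V × Module.End ℂ W) z).2) u = z • u := by
            simp
          rw [h1, h2]
          exact hint z f u h
    | add x y _ _ hx hy =>
        refine ⟨fun u hu => ?_, fun f u h => ?_⟩
        · simpa using Λ.add_mem (hx.1 u hu) (hy.1 u hu)
        · simpa using hadd _ _ _ _ (hx.2 f u h) (hy.2 f u h)
    | mul x y _ _ hx hy =>
        refine ⟨fun u hu => ?_, fun f u h => ?_⟩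
        · simpa using hx.1 _ (hy.1 u hu)
        · simpa using hx.2 _ _ (hy.2 f u h)
  have hΛfin : Module.Finite ℤ Λ := Module.Finite.iff_fg.mpr hΛ
  have hΛnoeth : IsNoetherian ℤ Λ := isNoetherian_of_isNoetherianRing_of_finite ℤ Λ
  obtain ⟨s, hs⟩ := hΛ
  have hsΛ : ∀ i : s, (i : W) ∈ Λ := fun i => hs ▸ Submodule.subset_span i.2
  have : Finite s := s.finite_toSet.to_subtype
  -- restriction to the lattice, evaluated on generators
  let ρ : 𝕋 →ₗ[ℤ] (s → Λ) :=
    { toFun := fun x i => ⟨(x : Module.End ℂ V × Module.End ℂ W).2 (i : W),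
        (hprop x x.2).1 _ (hsΛ i)⟩
      map_add' := fun x y => by
        funext i
        apply Subtype.ext
        simp
      map_smul' := fun z x => by
        funext i
        apply Subtype.ext
        simp }
  -- first projection
  let π : 𝕋 →ₗ[ℤ] Module.End ℂ V :=
    { toFun := fun x => (x : Module.End ℂ V × Module.End ℂ W).1
      map_add' := fun x y => by simp
      map_smul' := fun z x => by simp }
  have hker : LinearMap.ker ρ ≤ LinearMap.ker π := by
    intro x hx
    rw [LinearMap.mem_ker] at hx ⊢
    have hgen : ∀ i : s, (x : Module.End ℂ V × Module.End ℂ W).2 (i : W) = 0 := by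
      intro i
      have := congrArg (fun F => ((F i : Λ) : W)) hx
      simpa [ρ] using this
    have hΛ0 : ∀ u ∈ Λ, (x : Module.End ℂ V × Module.End ℂ W).2 u = 0 := by
      intro u hu
      rw [← hs] at hu
      induction hu using Submodule.span_induction with
      | mem v hv => exact hgen ⟨v, hv⟩
      | zero => simp
      | add a b _ _ ha hb => rw [map_add, ha, hb, add_zero]
      | smul z a _ ha => rw [map_zsmul, ha, smul_zero]
    have hspan0 : ∀ u ∈ Submodule.span ℂ (Λ : Set W),
        (x : Module.End ℂ V × Module.End ℂ W).2 u = 0 := by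
      intro u hu
      induction hu using Submodule.span_induction with
      | mem v hv => exact hΛ0 v hv
      | zero => simp
      | add a b _ _ ha hb => rw [map_add, ha, hb, add_zero]
      | smul c a _ ha => rw [map_smul, ha, smul_zero]
    show (x : Module.End ℂ V × Module.End ℂ W).1 = 0
    ext f
    obtain ⟨u, hu⟩ := hex f
    have h1 := (hprop x x.2).2 f u hu
    rw [hspan0 u (hspan f u hu)] at h1
    simpa using hinj _ h1
  -- the range of `π` is the adjoin of `range T`
  have hrange : (LinearMap.range π : Submodule ℤ (Module.End ℂ V)) =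
      Subalgebra.toSubmodule (Algebra.adjoin ℤ (Set.range T)) := by
    have himg : (Algebra.adjoin ℤ gens).map (AlgHom.fst ℤ (Module.End ℂ V) (Module.End ℂ W)) =
        Algebra.adjoin ℤ (Set.range T) := by
      rw [AlgHom.map_adjoin]
      congr 1
      ext t
      constructor
      · rintro ⟨x, ⟨i, rfl⟩, rfl⟩
        exact ⟨i, rfl⟩
      · rintro ⟨i, rfl⟩
        exact ⟨(T i, S i), ⟨i, rfl⟩, rfl⟩
    ext t
    constructor
    · rintro ⟨x, rfl⟩
      rw [← himg]
      exact ⟨x, x.2, rfl⟩
    · intro ht
      rw [Subalgebra.mem_toSubmodule, ← himg] at ht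
      obtain ⟨x, hx, rfl⟩ := ht
      exact ⟨⟨x, hx⟩, rfl⟩
  -- `range ρ` is f.g., and `range π` is a quotient of it
  have hρfin : Module.Finite ℤ (LinearMap.range ρ) := inferInstance
  let q : LinearMap.range ρ →ₗ[ℤ] Module.End ℂ V :=
    (LinearMap.ker ρ).liftQ π hker ∘ₗ (LinearMap.quotKerEquivRange ρ).symm.toLinearMap
  have hq : LinearMap.range q = LinearMap.range π := by
    rw [LinearMap.range_comp, LinearEquiv.range, Submodule.map_top, Submodule.range_liftQ]
  have hfin : Module.Finite ℤ (LinearMap.range π) := by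
    rw [← hq]
    exact Module.Finite.range q
  rw [hrange] at hfin
  exact hfin

end Fermat.Agent.H36
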