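import Mathlib

set_option autoImplicit false

namespace Fermat.Agent.H36

open Module

/-- Stability of a lattice of functionals under a set of endomorphisms extends to the
`ℤ`-algebra they generate. -/
theorem comp_mem_of_mem_adjoin {V : Type*} [AddCommGroup V] [Module ℂ V]
    (gens : Set (Module.End ℂ V)) (L : Submodule ℤ (Module.Dual ℂ V))
    (hstab : ∀ T ∈ gens, ∀ φ ∈ L, φ.comp T ∈ L) :
    ∀ t ∈ Algebra.adjoin ℤ gens, ∀ φ ∈ L, φ.comp t ∈ L := by
  intro t ht
  induction ht using Algebra.adjoin_induction with
  | mem T hT => exact hstab T hT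
  | algebraMap z =>
      intro φ hφ
      have : φ.comp (algebraMap ℤ (Module.End ℂ V) z) = z • φ := by
        ext v
        simp
      rw [this]
      exact L.smul_mem z hφ
  | add t₁ t₂ _ _ h₁ h₂ =>
      intro φ hφ
      have : φ.comp (t₁ + t₂) = φ.comp t₁ + φ.comp t₂ := by
        ext v; simp
      rw [this]
      exact L.add_mem (h₁ φ hφ) (h₂ φ hφ)
  | mul t₁ t₂ _ _ h₁ h₂ =>
      intro φ hφ
      have : φ.comp (t₁ * t₂) = (φ.comp t₁).comp t₂ := by
        ext v; simp
      rw [this]
      exact h₂ _ (h₁ φ hφ)

/-- Abstract glue: if a `ℤ`-lattice `L` of linear functionals on a complex vector space `V`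
is finitely generated, separates the points of `V`, and is stable under precomposition with
every element of a set `gens` of endomorphisms, then the `ℤ`-algebra generated by `gens` is a
finitely generated `ℤ`-module. -/
theorem finite_adjoin_of_dual_lattice {V : Type*} [AddCommGroup V] [Module ℂ V]
    (gens : Set (Module.End ℂ V)) (L : Submodule ℤ (Module.Dual ℂ V)) (hfg : L.FG)
    (hstab : ∀ T ∈ gens, ∀ φ ∈ L, φ.comp T ∈ L)
    (hsep : ∀ v : V, (∀ φ ∈ L, φ v = 0) → v = 0) :
    Module.Finite ℤ (Algebra.adjoin ℤ gens) := by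
  classical
  have hstab' := comp_mem_of_mem_adjoin gens L hstab
  have hLfin : Module.Finite ℤ L := Module.Finite.iff_fg.mpr hfg
  have hLnoeth : IsNoetherian ℤ L := isNoetherian_of_isNoetherianRing_of_finite ℤ L
  obtain ⟨s, hs⟩ := hfg
  have hsL : ∀ i : s, (i : Module.Dual ℂ V) ∈ L := fun i => hs ▸ Submodule.subset_span i.2
  let Ψ : (Algebra.adjoin ℤ gens) →ₗ[ℤ] (s → L) :=
    { toFun := fun t i =>
        ⟨(i : Module.Dual ℂ V).comp (t : Module.End ℂ V), hstab' t t.2 i (hsL i)⟩
      map_add' := fun t₁ t₂ => by
        funext i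
        apply Subtype.ext
        ext v
        simp
      map_smul' := fun z t => by
        funext i
        apply Subtype.ext
        ext v
        simp }
  have hΨ : Function.Injective Ψ := by
    intro t₁ t₂ h
    apply Subtype.ext
    ext v
    have hsub : (t₁ : Module.End ℂ V) v - (t₂ : Module.End ℂ V) v = 0 := by
      apply hsep
      intro φ hφ
      rw [← hs] at hφ
      induction hφ using Submodule.span_induction with
      | mem ψ hψ =>
          have := congrArg (fun F => ((F ⟨ψ, hψ⟩ : L) : Module.Dual ℂ V) v) h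
          simp only [Ψ, LinearMap.coe_mk, AddHom.coe_mk, LinearMap.comp_apply] at this
          rw [map_sub, this, sub_self]
      | zero => simp
      | add φ₁ φ₂ _ _ h₁ h₂ => rw [LinearMap.add_apply, h₁, h₂, add_zero]
      | smul z φ _ h₁ => rw [LinearMap.smul_apply, h₁, smul_zero]
    exact sub_eq_zero.mp hsub
  have : Finite s := s.finite_toSet.to_subtype
  exact Module.Finite.of_injective Ψ hΨ

end Fermat.Agent.H36
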