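import Mathlib
import Fermat.Prelude.Def_CuspForm_HeckeAlgebra
import Fermat.Prelude.Thm_ModularForm_sturm_bound_Gamma0
import Fermat.Agent.H36.DualLattice

set_option autoImplicit false

namespace Fermat.Agent.H36

open Module CongruenceSubgroup
open scoped MatrixGroups

/-- Cusp forms of weight `k ≤ 0` on `Γ₀(N)` vanish (prelude Sturm bound with bound `0`). -/
theorem cuspForm_Gamma0_eq_zero_of_nonpos (N : ℕ) [NeZero N] {k : ℤ} (hk : k ≤ 0)
    (f : CuspForm (Gamma0 N) k) : f = 0 := by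
  have h : CuspForm.toModularFormₗ f = 0 := by
    refine ModularForm.sturm_bound_Gamma0 N (k := k) (CuspForm.toModularFormₗ f) ?_
    intro n hn
    have h0 : (k * ((Gamma0 N).index : ℤ)).toNat = 0 := by
      apply Int.toNat_eq_zero.mpr
      exact mul_nonpos_of_nonpos_of_nonneg hk (by positivity)
    have hn0 : n = 0 := by
      rw [h0] at hn
      simpa using hn
    subst hn0
    exact CuspFormClass.qExpansion_coeff_zero f one_pos
      (by simp [CongruenceSubgroup.strictPeriods_Gamma0])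
  apply CuspForm.toModularFormₗ_injective
  rw [h, map_zero]

/-- Cusp forms of odd weight on `Γ₀(N)` vanish (`-1 ∈ Γ₀(N)`). -/
theorem cuspForm_Gamma0_eq_zero_of_odd (N : ℕ) {k : ℤ} (hk : Odd k)
    (f : CuspForm (Gamma0 N) k) : f = 0 := by
  have hneg : (-1 : GL (Fin 2) ℝ) ∈ ((Gamma0 N : Subgroup SL(2, ℤ)) : Subgroup (GL (Fin 2) ℝ)) := by
    refine ⟨-1, ?_, ?_⟩
    · rw [SetLike.mem_coe, Gamma0_mem]
      simp
    · ext i j
      simp
  have h : CuspForm.toModularFormₗ f = 0 :=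
    ModularForm.eq_zero_of_neg_one_mem hneg hk _
  apply CuspForm.toModularFormₗ_injective
  rw [h, map_zero]

/-- If the space is trivial, the Hecke algebra is a finite `ℤ`-module. -/
theorem heckeAlgebra_finite_of_forall_eq_zero (N : ℕ) [NeZero N] (k : ℤ) (S : Set ℕ)
    (h : ∀ f : CuspForm (Gamma0 N) k, f = 0) :
    Module.Finite ℤ (CuspForm.heckeAlgebra N k S) := by
  refine finite_adjoin_of_dual_lattice (CuspForm.heckeGenerators N k S) ⊥ Submodule.fg_bot ?_ ?_
  · intro T _ φ hφ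
    rw [Submodule.mem_bot] at hφ ⊢
    rw [hφ, LinearMap.zero_comp]
  · intro v _
    exact h v

/-- S22 in the trivial range of weights. -/
theorem heckeAlgebra_finite_of_nonpos_or_odd (N : ℕ) [NeZero N] (k : ℤ) (S : Set ℕ)
    (hk : k ≤ 0 ∨ Odd k) : Module.Finite ℤ (CuspForm.heckeAlgebra N k S) := by
  refine heckeAlgebra_finite_of_forall_eq_zero N k S fun f => ?_
  rcases hk with hk | hk
  · exact cuspForm_Gamma0_eq_zero_of_nonpos N hk f
  · exact cuspForm_Gamma0_eq_zero_of_odd N hk f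

/-- The main glue for S22: a finitely generated, separating `ℤ`-lattice of functionals on
`S_k(Γ₀(N))` which is stable under all `T_ℓ` (`ℓ ∤ N`) and `U_q` (`q ∣ N`) forces the Hecke
algebra (away from any set `S`) to be a finite `ℤ`-module. -/
theorem heckeAlgebra_finite_of_dual_lattice (N : ℕ) [NeZero N] (k : ℤ) (S : Set ℕ)
    (L : Submodule ℤ (Module.Dual ℂ (CuspForm (Gamma0 N) k))) (hfg : L.FG)
    (hT : ∀ (ℓ : ℕ) (hℓ : ℓ.Prime) (hℓN : ¬ ℓ ∣ N), ℓ ∉ S →
      ∀ φ ∈ L, φ.comp (CuspForm.heckeTLin k hℓ hℓN) ∈ L)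
    (hU : ∀ (q : ℕ) (hqN : q ∣ N), q.Prime → q ∉ S →
      ∀ φ ∈ L, φ.comp (CuspForm.heckeULin k hqN) ∈ L)
    (hsep : ∀ f : CuspForm (Gamma0 N) k, (∀ φ ∈ L, φ f = 0) → f = 0) :
    Module.Finite ℤ (CuspForm.heckeAlgebra N k S) := by
  refine finite_adjoin_of_dual_lattice (CuspForm.heckeGenerators N k S) L hfg ?_ hsep
  rintro T (⟨ℓ, hℓ, hℓN, hℓS, rfl⟩ | ⟨q, hqN, hq, hqS, rfl⟩) φ hφ
  · exact hT ℓ hℓ hℓN hℓS φ hφ
  · exact hU q hqN hq hqS φ hφ

end Fermat.Agent.H36
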