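import Mathlib
import Fermat.Prelude.Def_CuspForm_HeckeAlgebra
import Fermat.Prelude.Def_CuspForm_IntegralStructure
import Fermat.Prelude.Thm_CuspForm_intLattice_fg
import Fermat.Prelude.Thm_CuspForm_mem_intLattice_of_mem_heckeAlgebra
import Fermat.Agent.H36.HeckeFinGlue

set_option autoImplicit false

namespace Fermat.Agent.H36

open Module CongruenceSubgroup

/-- Glue: if `S_k(Γ₀(N))` has an integral structure (the forms with integral `q`-expansion
span it over `ℂ`), then the Hecke algebra is a finite `ℤ`-module.  Uses the two prelude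
theorems `CuspForm.intLattice_fg` and `CuspForm.mem_intLattice_of_mem_heckeAlgebra`. -/
theorem heckeAlgebra_finite_of_hasIntegralStructure (N : ℕ) [NeZero N] (k : ℤ) (S : Set ℕ)
    (H : CuspForm.HasIntegralStructure N k) :
    Module.Finite ℤ (CuspForm.heckeAlgebra N k S) := by
  classical
  rcases le_or_gt k 0 with hk0 | hk0
  · exact heckeAlgebra_finite_of_nonpos_or_odd N k S (Or.inl hk0)
  have hk : 1 ≤ k := by omega
  set Λ : Submodule ℤ (CuspForm (Gamma0 N) k) := CuspForm.intLattice N k with hΛdef
  have hfg : Λ.FG := CuspForm.intLattice_fg N k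
  have hΛfin : Module.Finite ℤ Λ := Module.Finite.iff_fg.mpr hfg
  have hΛnoeth : IsNoetherian ℤ Λ := isNoetherian_of_isNoetherianRing_of_finite ℤ Λ
  obtain ⟨s, hs⟩ := hfg
  have hsΛ : ∀ i : s, (i : CuspForm (Gamma0 N) k) ∈ Λ := fun i => hs ▸ Submodule.subset_span i.2
  have : Finite s := s.finite_toSet.to_subtype
  let Ψ : (CuspForm.heckeAlgebra N k S) →ₗ[ℤ] (s → Λ) :=
    { toFun := fun t i =>
        ⟨(t : Module.End ℂ (CuspForm (Gamma0 N) k)) (i : CuspForm (Gamma0 N) k),
          CuspForm.mem_intLattice_of_mem_heckeAlgebra hk t.2 (hsΛ i)⟩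
      map_add' := fun t₁ t₂ => by
        funext i
        apply Subtype.ext
        simp
      map_smul' := fun z t => by
        funext i
        apply Subtype.ext
        simp }
  have hΨ : Function.Injective Ψ := by
    intro t₁ t₂ h
    apply Subtype.ext
    have hgen : ∀ i : s, (t₁ : Module.End ℂ (CuspForm (Gamma0 N) k)) (i : CuspForm (Gamma0 N) k)
        = (t₂ : Module.End ℂ (CuspForm (Gamma0 N) k)) (i : CuspForm (Gamma0 N) k) := by
      intro i
      have := congrArg (fun F => ((F i : Λ) : CuspForm (Gamma0 N) k)) h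
      simpa [Ψ] using this
    have hΛeq : ∀ u ∈ Λ, (t₁ : Module.End ℂ (CuspForm (Gamma0 N) k)) u
        = (t₂ : Module.End ℂ (CuspForm (Gamma0 N) k)) u := by
      intro u hu
      rw [← hs] at hu
      induction hu using Submodule.span_induction with
      | mem v hv => exact hgen ⟨v, hv⟩
      | zero => simp
      | add a b _ _ ha hb => rw [map_add, map_add, ha, hb]
      | smul z a _ ha => rw [map_zsmul, map_zsmul, ha]
    apply LinearMap.ext_on_range (v := fun u : Λ => (u : CuspForm (Gamma0 N) k))
    · have : Set.range (fun u : Λ => (u : CuspForm (Gamma0 N) k)) =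
          ((Λ : Submodule ℤ (CuspForm (Gamma0 N) k)) : Set (CuspForm (Gamma0 N) k)) := by
        ext x
        simp
      rw [this]
      exact H
    · intro u
      exact hΛeq u u.2
  exact Module.Finite.of_injective Ψ hΨ

/-- S22 from an integral structure in every weight. -/
theorem heckeAlgebra_finite_of_forall_hasIntegralStructure
    (H : ∀ (N : ℕ) [NeZero N] (k : ℤ), 2 ≤ k → Even k → CuspForm.HasIntegralStructure N k)
    (N : ℕ) [NeZero N] (k : ℤ) (S : Set ℕ) :
    Module.Finite ℤ (CuspForm.heckeAlgebra N k S) := by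
  rcases Int.even_or_odd k with hev | hodd
  · rcases le_or_gt k 0 with hk0 | hk0
    · exact heckeAlgebra_finite_of_nonpos_or_odd N k S (Or.inl hk0)
    · have h2 : 2 ≤ k := by
        obtain ⟨m, rfl⟩ := hev
        omega
      exact heckeAlgebra_finite_of_hasIntegralStructure N k S (H N k h2 hev)
  · exact heckeAlgebra_finite_of_nonpos_or_odd N k S (Or.inr hodd)

end Fermat.Agent.H36
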