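import Mathlib
import Fermat.Agent.H36.HeckeFinGlue

set_option autoImplicit false

namespace Fermat.Agent.H36

/-- (D3) cusp forms of weight `k ≤ 1` on `Γ₀(N)` vanish. -/
theorem cuspForm_eq_zero_of_weight_le_one (N : ℕ) [NeZero N] (k : ℤ) (hk : k ≤ 1)
    (f : CuspForm (CongruenceSubgroup.Gamma0 N) k) : f = 0 := by
  rcases lt_or_eq_of_le hk with h | h
  · exact cuspForm_Gamma0_eq_zero_of_nonpos N (by omega) f
  · subst h
    exact cuspForm_Gamma0_eq_zero_of_odd N odd_one f

end Fermat.Agent.H36
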