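import Fermat.Agent.H13.S14ThaineK

/-!
# P-S14, C3-K2: the final congruence for `η` (`ThaineCongrStatement`)

Given a degree-one prime `P` of `K = ℚ(ζ_p)` not above `p`, an integer `s` and exponents
`r σ` with `1 - ζ ≡ s ^ (r σ)` modulo `σ P` for every `σ ∈ Gal(K/ℚ)`, and the class relation
`∑_σ r_σ k_σ² = 0` in `ZMod p`, the `ω²`-cyclotomic unit `η` is a `p`-th power modulo `P`.
-/

set_option autoImplicit false

open scoped NumberField nonZeroDivisors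

namespace Fermat.Agent.H36

open Fermat.Agent.H13

section PowerSum

variable (p : ℕ) [hp : Fact p.Prime]

/-- Sums over `range p` of a function of the residue class are sums over `ZMod p`. -/
theorem k2_sum_range_natCast_zmod (g : ZMod p → ZMod p) :
    ∑ a ∈ Finset.range p, g (a : ZMod p) = ∑ x : ZMod p, g x := by
  have : NeZero p := ⟨hp.out.ne_zero⟩
  refine Finset.sum_nbij' (fun a => (a : ZMod p)) (fun x => x.val) ?_ ?_ ?_ ?_ ?_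
  · intro a _; exact Finset.mem_univ _
  · intro x _; exact Finset.mem_range.mpr (ZMod.val_lt x)
  · intro a ha; exact ZMod.val_natCast_of_lt (Finset.mem_range.mp ha)
  · intro x _; exact ZMod.natCast_zmod_val x
  · intro a _; rfl

/-- Power sums over `1 ≤ a < p` vanish in `𝔽_p` for exponents `0 < i < p - 1`. -/
theorem k2_sum_Ico_pow_eq_zero {i : ℕ} (hi0 : 0 < i) (hi : i < p - 1) :
    ∑ a ∈ Finset.Ico 1 p, (a : ZMod p) ^ i = 0 := by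
  have h1 : ∑ a ∈ Finset.Ico 1 p, (a : ZMod p) ^ i =
      ∑ a ∈ Finset.range p, (a : ZMod p) ^ i := by
    refine Finset.sum_subset ?_ ?_
    · intro a ha
      rw [Finset.mem_Ico] at ha
      exact Finset.mem_range.mpr ha.2
    · intro a ha hna
      rw [Finset.mem_range] at ha
      rw [Finset.mem_Ico, not_and_or] at hna
      have : a = 0 := by omega
      subst this
      simp [hi0.ne']
  rw [h1, k2_sum_range_natCast_zmod p (fun x => x ^ i)]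
  refine FiniteField.sum_pow_lt_card_sub_one (ZMod p) i ?_
  rw [ZMod.card]
  exact hi

/-- The sum of the exponents `a ^ (p - 3) % p` of `η` is divisible by `p`. -/
theorem k2_dvd_sum_exponents (h5 : 5 ≤ p) :
    p ∣ ∑ a ∈ Finset.Ico 1 p, a ^ (p - 3) % p := by
  rw [← ZMod.natCast_eq_zero_iff]
  push_cast
  have h := k2_sum_Ico_pow_eq_zero p (i := p - 3) (by omega) (by omega)
  rw [← h]
  refine Finset.sum_congr rfl ?_
  intro a _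
  rw [ZMod.natCast_mod]
  push_cast
  rfl

end PowerSum

section Cyclo

variable (p : ℕ) [Fact p.Prime] (K : Type) [Field K] [NumberField K]
  [IsCyclotomicExtension {p} ℚ K]

/-- `η · (1 - ζ)^(∑ m a) = ∏ (1 - ζ^a)^(m a)`. -/
theorem k2_eta_mul (ζ : K) (hζ : IsPrimitiveRoot ζ p) :
    etaInt p hζ * (1 - hζ.toInteger) ^ (∑ a ∈ Finset.Ico 1 p, a ^ (p - 3) % p) =
      ∏ a ∈ Finset.Ico 1 p, (1 - hζ.toInteger ^ a) ^ (a ^ (p - 3) % p) := by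
  rw [etaInt, ← Finset.prod_pow_eq_pow_sum, ← Finset.prod_mul_distrib]
  refine Finset.prod_congr rfl ?_
  intro a _
  rw [← mul_pow]
  congr 1
  rw [mul_comm]
  exact mul_neg_geom_sum hζ.toInteger a

/-- `1 - ζ` is invertible modulo a degree-one prime not above `p`. -/
theorem k2_exists_inv (ζ : K) (hζ : IsPrimitiveRoot ζ p) (P : (Ideal (𝓞 K))⁰)
    (hP : IsDegOnePrime p P) :
    ∃ w : 𝓞 K, (1 - hζ.toInteger) * w - 1 ∈ (P : Ideal (𝓞 K)) := by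
  have hp : p.Prime := Fact.out
  obtain ⟨-, hℓ, hne⟩ := hP
  have hℓP : ((Ideal.absNorm (P : Ideal (𝓞 K)) : ℕ) : 𝓞 K) ∈ (P : Ideal (𝓞 K)) :=
    Ideal.absNorm_mem _
  have hcop : IsCoprime ((p : ℕ) : ℤ) ((Ideal.absNorm (P : Ideal (𝓞 K)) : ℕ) : ℤ) := by
    rw [Nat.isCoprime_iff_coprime]
    exact (Nat.coprime_primes hp hℓ).mpr (Ne.symm hne)
  obtain ⟨a, b, hab⟩ := hcop
  obtain ⟨c, hc⟩ := hζ.toInteger_sub_one_dvd_prime'
  have h4 : ((a * ((p : ℕ) : ℤ) + b * ((Ideal.absNorm (P : Ideal (𝓞 K)) : ℕ) : ℤ) : ℤ) : 𝓞 K)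
      = 1 := by rw [hab]; simp
  push_cast at h4
  refine ⟨-(c * (a : 𝓞 K)), ?_⟩
  have h5 : (1 - hζ.toInteger) * (-(c * (a : 𝓞 K))) - 1 =
      -((b : 𝓞 K) * ((Ideal.absNorm (P : Ideal (𝓞 K)) : ℕ) : 𝓞 K)) := by
    linear_combination (-(a : 𝓞 K)) * hc + h4
  rw [h5]
  exact neg_mem (Ideal.mul_mem_left _ _ hℓP)

/-- The Galois group of `ℚ(ζ_p)/ℚ` has `p - 1` elements. -/
theorem k2_card_aut : Fintype.card (K ≃ₐ[ℚ] K) = p - 1 := by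
  have hp : p.Prime := Fact.out
  have : NeZero p := ⟨hp.ne_zero⟩
  have := IsCyclotomicExtension.isGalois {p} ℚ K
  have := IsCyclotomicExtension.finiteDimensional {p} ℚ K
  rw [← Nat.card_eq_fintype_card, IsGalois.card_aut_eq_finrank,
    IsCyclotomicExtension.finrank K (Polynomial.cyclotomic.irreducible_rat hp.pos),
    Nat.totient_prime hp]

variable {p K}

/-- `ζ ^ (n % p) = ζ ^ n`. -/
theorem k2_pow_mod {ζ : K} (hζ : IsPrimitiveRoot ζ p) (n : ℕ) : ζ ^ (n % p) = ζ ^ n :=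
  (pow_eq_pow_mod n hζ.pow_eq_one).symm

theorem k2_toInteger_pow_mod {ζ : K} (hζ : IsPrimitiveRoot ζ p) (n : ℕ) :
    hζ.toInteger ^ (n % p) = hζ.toInteger ^ n :=
  (pow_eq_pow_mod n hζ.toInteger_isPrimitiveRoot.pow_eq_one).symm

/-- `σ ↦ k σ % p` is injective. -/
theorem k2_kmod_injective {ζ : K} (hζ : IsPrimitiveRoot ζ p) (k : (K ≃ₐ[ℚ] K) → ℕ)
    (hk : ∀ σ : K ≃ₐ[ℚ] K, σ ζ = ζ ^ (k σ)) :
    Function.Injective (fun σ : K ≃ₐ[ℚ] K => k σ % p) := by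
  intro σ τ h
  simp only at h
  apply sigma_eq_of_sigma_zeta_eq p K ζ hζ
  rw [hk σ, hk τ, ← k2_pow_mod hζ (k σ), ← k2_pow_mod hζ (k τ), h]

/-- `k σ % p ∈ [1, p)`. -/
theorem k2_kmod_mem {ζ : K} (hζ : IsPrimitiveRoot ζ p) (k : (K ≃ₐ[ℚ] K) → ℕ)
    (hk : ∀ σ : K ≃ₐ[ℚ] K, σ ζ = ζ ^ (k σ)) (σ : K ≃ₐ[ℚ] K) :
    k σ % p ∈ Finset.Ico 1 p := by
  have hp : p.Prime := Fact.out
  rw [Finset.mem_Ico]
  refine ⟨?_, Nat.mod_lt _ hp.pos⟩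
  rw [Nat.one_le_iff_ne_zero]
  intro h0
  have h1 : σ ζ = 1 := by rw [hk σ, ← k2_pow_mod hζ (k σ), h0, pow_zero]
  have h2 : σ ζ = σ 1 := by rw [h1, map_one]
  exact hζ.ne_one hp.one_lt (σ.injective h2)

/-- The image of `σ ↦ k σ % p` is `[1, p)`. -/
theorem k2_image_kmod {ζ : K} (hζ : IsPrimitiveRoot ζ p) (k : (K ≃ₐ[ℚ] K) → ℕ)
    (hk : ∀ σ : K ≃ₐ[ℚ] K, σ ζ = ζ ^ (k σ)) :
    Finset.image (fun σ : K ≃ₐ[ℚ] K => k σ % p) Finset.univ = Finset.Ico 1 p := by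
  apply Finset.eq_of_subset_of_card_le
  · intro a ha
    rw [Finset.mem_image] at ha
    obtain ⟨σ, -, rfl⟩ := ha
    exact k2_kmod_mem hζ k hk σ
  · rw [Finset.card_image_of_injective _ (k2_kmod_injective hζ k hk), Finset.card_univ,
      k2_card_aut p K, Nat.card_Ico]

/-- `k σ · k σ⁻¹ ≡ 1` modulo `p`. -/
theorem k2_k_mul_k_inv {ζ : K} (hζ : IsPrimitiveRoot ζ p) (k : (K ≃ₐ[ℚ] K) → ℕ)
    (hk : ∀ σ : K ≃ₐ[ℚ] K, σ ζ = ζ ^ (k σ)) (σ : K ≃ₐ[ℚ] K) :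
    ((k σ : ℕ) : ZMod p) * ((k σ⁻¹ : ℕ) : ZMod p) = 1 := by
  have hp : p.Prime := Fact.out
  have h1 : ζ ^ (k σ⁻¹ * k σ) = ζ ^ 1 := by
    rw [pow_mul, ← hk σ⁻¹, ← map_pow, ← hk σ, pow_one]
    change (σ⁻¹ * σ) ζ = ζ
    rw [inv_mul_cancel, AlgEquiv.one_apply]
  have h2 : k σ⁻¹ * k σ ≡ 1 [MOD p] := by
    have hfin : IsOfFinOrder ζ := isOfFinOrder_iff_pow_eq_one.mpr ⟨p, hp.pos, hζ.pow_eq_one⟩
    have := hfin.pow_eq_pow_iff_modEq.mp h1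
    rwa [← hζ.eq_orderOf] at this
  have h3 := (ZMod.natCast_eq_natCast_iff _ _ _).mpr h2
  push_cast at h3
  rw [mul_comm]
  exact h3

/-- `m(k σ % p) ≡ (k σ⁻¹)²` modulo `p`. -/
theorem k2_m_kmod (h5 : 5 ≤ p) {ζ : K} (hζ : IsPrimitiveRoot ζ p) (k : (K ≃ₐ[ℚ] K) → ℕ)
    (hk : ∀ σ : K ≃ₐ[ℚ] K, σ ζ = ζ ^ (k σ)) (σ : K ≃ₐ[ℚ] K) :
    (((k σ % p) ^ (p - 3) % p : ℕ) : ZMod p) = ((k σ⁻¹ : ℕ) : ZMod p) ^ 2 := by
  have hmul := k2_k_mul_k_inv hζ k hk σ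
  have hu : ((k σ : ℕ) : ZMod p) ≠ 0 := by
    intro h0
    rw [h0, zero_mul] at hmul
    exact zero_ne_one hmul
  rw [ZMod.natCast_mod, Nat.cast_pow, ZMod.natCast_mod]
  have hfer : ((k σ : ℕ) : ZMod p) ^ (p - 1) = 1 := ZMod.pow_card_sub_one_eq_one hu
  calc ((k σ : ℕ) : ZMod p) ^ (p - 3)
      = ((k σ : ℕ) : ZMod p) ^ (p - 3) * (((k σ : ℕ) : ZMod p) * ((k σ⁻¹ : ℕ) : ZMod p)) ^ 2 := by
        rw [hmul, one_pow, mul_one]
    _ = ((k σ : ℕ) : ZMod p) ^ (p - 3 + 2) * ((k σ⁻¹ : ℕ) : ZMod p) ^ 2 := by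
        rw [mul_pow, pow_add, mul_assoc]
    _ = ((k σ⁻¹ : ℕ) : ZMod p) ^ 2 := by
        have : p - 3 + 2 = p - 1 := by omega
        rw [this, hfer, one_mul]

/-- The exponent `E = ∑_σ r(σ⁻¹) m(k σ % p)` is divisible by `p`. -/
theorem k2_dvd_exponent (h5 : 5 ≤ p) {ζ : K} (hζ : IsPrimitiveRoot ζ p)
    (r k : (K ≃ₐ[ℚ] K) → ℕ) (hk : ∀ σ : K ≃ₐ[ℚ] K, σ ζ = ζ ^ (k σ))
    (hsum : ∑ σ : K ≃ₐ[ℚ] K, ((r σ : ℕ) : ZMod p) * ((k σ : ℕ) : ZMod p) ^ 2 = 0) :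
    p ∣ ∑ σ : K ≃ₐ[ℚ] K, r σ⁻¹ * ((k σ % p) ^ (p - 3) % p) := by
  rw [← ZMod.natCast_eq_zero_iff, Nat.cast_sum]
  have h1 : ∀ σ : K ≃ₐ[ℚ] K,
      ((r σ⁻¹ * ((k σ % p) ^ (p - 3) % p) : ℕ) : ZMod p) =
        (fun τ : K ≃ₐ[ℚ] K => ((r τ : ℕ) : ZMod p) * ((k τ : ℕ) : ZMod p) ^ 2)
          ((Equiv.inv (K ≃ₐ[ℚ] K)) σ) := by
    intro σ
    rw [Nat.cast_mul, k2_m_kmod h5 hζ k hk σ]
    rfl
  rw [Finset.sum_congr rfl (fun σ _ => h1 σ),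
    Equiv.sum_comp (Equiv.inv (K ≃ₐ[ℚ] K))
      (fun τ : K ≃ₐ[ℚ] K => ((r τ : ℕ) : ZMod p) * ((k τ : ℕ) : ZMod p) ^ 2)]
  exact hsum

/-- `1 - ζ^(k σ % p) ≡ s^(r σ⁻¹)` modulo `P`. -/
theorem k2_congr {ζ : K} (hζ : IsPrimitiveRoot ζ p) (P : Ideal (𝓞 K)) (s : ℤ)
    (r k : (K ≃ₐ[ℚ] K) → ℕ) (hk : ∀ σ : K ≃ₐ[ℚ] K, σ ζ = ζ ^ (k σ))
    (hcong : ∀ σ : K ≃ₐ[ℚ] K, (1 - hζ.toInteger) - (s : 𝓞 K) ^ (r σ) ∈
      Ideal.map (sigmaO K σ) P) (σ : K ≃ₐ[ℚ] K) :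
    (1 - hζ.toInteger ^ (k σ % p)) - (s : 𝓞 K) ^ (r σ⁻¹) ∈ P := by
  have h := hcong σ⁻¹
  rw [mem_map_sigmaO_iff, inv_inv] at h
  have hσζ : sigmaO K σ hζ.toInteger = hζ.toInteger ^ (k σ) := by
    apply NumberField.RingOfIntegers.coe_injective
    rw [map_pow]
    exact hk σ
  rw [map_sub, map_sub, map_one, map_pow, map_intCast, hσζ] at h
  rw [k2_toInteger_pow_mod hζ]
  exact h

end Cyclo

/-- **C3-K2**: the final congruence for `η`. -/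
theorem thaineCongrStatement : ThaineCongrStatement := by
  intro p _ h5 K _ _ _ ζ hζ P hP s r k hk hcong hsum
  have hp : p.Prime := Fact.out
  obtain ⟨M, hM⟩ := k2_dvd_sum_exponents p h5
  obtain ⟨t, ht⟩ := k2_dvd_exponent h5 hζ r k hk hsum
  obtain ⟨w, hw⟩ := k2_exists_inv p K ζ hζ P hP
  refine ⟨(s : 𝓞 K) ^ t * w ^ M, ?_⟩
  rw [← Ideal.Quotient.eq_zero_iff_mem, map_sub, sub_eq_zero]
  set q := Ideal.Quotient.mk (P : Ideal (𝓞 K)) with hq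
  have hw' : q (1 - hζ.toInteger) * q w = 1 := by
    rw [← map_mul, ← map_one q, ← sub_eq_zero, ← map_sub]
    exact Ideal.Quotient.eq_zero_iff_mem.mpr hw
  have hc : ∀ σ : K ≃ₐ[ℚ] K,
      q (1 - hζ.toInteger ^ (k σ % p)) = q (s : 𝓞 K) ^ (r σ⁻¹) := by
    intro σ
    rw [← map_pow, ← sub_eq_zero, ← map_sub]
    exact Ideal.Quotient.eq_zero_iff_mem.mpr (k2_congr hζ (P : Ideal (𝓞 K)) s r k hk hcong σ)
  have hprod : q (etaInt p hζ) * q (1 - hζ.toInteger) ^ (p * M) = q (s : 𝓞 K) ^ (p * t) := by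
    rw [← hM, ← ht, ← map_pow, ← map_mul, k2_eta_mul p K ζ hζ, ← k2_image_kmod hζ k hk,
      Finset.prod_image (fun σ _ τ _ h => k2_kmod_injective hζ k hk h), map_prod,
      ← Finset.prod_pow_eq_pow_sum]
    refine Finset.prod_congr rfl ?_
    intro σ _
    rw [map_pow, hc σ, pow_mul]
  calc q (etaInt p hζ)
      = q (etaInt p hζ) * (q (1 - hζ.toInteger) * q w) ^ (p * M) := by
        rw [hw', one_pow, mul_one]
    _ = q (etaInt p hζ) * q (1 - hζ.toInteger) ^ (p * M) * q w ^ (p * M) := by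
        rw [mul_pow, mul_assoc]
    _ = q (s : 𝓞 K) ^ (p * t) * q w ^ (p * M) := by rw [hprod]
    _ = q (((s : 𝓞 K) ^ t * w ^ M) ^ p) := by
        rw [map_pow, map_mul, map_pow, map_pow, mul_pow, ← pow_mul, ← pow_mul, mul_comm t p,
          mul_comm M p]

end Fermat.Agent.H36
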